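import Fermat.Agent.H3.ORD.NmCrossDefs
import Fermat.Agent.H95.ORD.LocalW

/-!
# P-ORD, block B1, row B1-D-XY (c3) : the branch on `C_0` from the branch on `C_∞` by `W`
(helper12)

`NmCrossOrdOoStatement M p` : the `∞`-half of helper3's `NmCrossOrdStatement` (same hypotheses):
a place `Q` of `F_∞` over the centre of the node `P` with `ord_Q (red_∞ Y) = 1`.

`nmCrossOrd_of_oo : NmSoftStatement M p → NmCrossOrdOoStatement M p → NmCrossOrdStatement M p` :
the place `Q'` of `F_0 = F_∞` over the centre of `P` is the place `Q` of the node `W • P`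
(`red_0 = red_∞ ∘ W`, `W X = Y`, `W Y = X`); the transport is the one of helper86's
`nmDvrZero_of_oo`, with helper95's local `W`-stability `nmLocalW` plugged in.
-/

set_option autoImplicit false
set_option linter.unusedSectionVars false
set_option linter.unusedVariables false
set_option linter.style.haveILetI false

noncomputable section

open AlgebraicCurve ModularCurve

namespace Fermat.Agent.H12.ORD

open Fermat.Agent.H72.FF Fermat.Agent.H18.ORD Fermat.Agent.H66 Fermat.Agent.H84.ORD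
open Fermat.Agent.H86.ORD Fermat.Agent.H3.ORD

/-- **(c), component `∞`** : a place `Q` of `F_∞` over the centre of the node `P` at which
`red_∞ Y` is a uniformiser. -/
def NmCrossOrdOoStatement (M p : ℕ) [NeZero M] [NeZero p] : Prop :=
  ∀ (A : ValuationSubring Qb) (h : NmSetup M p A) (P : Place Qb (FLb (M * p))),
    NmIdealOo M p A P → NmIdealZero M p h.cop A P → nmY A P = nmJ (M * p) →
    nmX M p h.four ∈ nmChart (M * p) A (nmJ (M * p)) →
    nmYc M p h.four ∈ nmChart (M * p) A (nmJ (M * p)) →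
    nmX M p h.four ∈ nmMax A P → nmYc M p h.four ∈ nmMax A P →
    ∃ Q : Place (kRes A) (NmF (M * p) A),
      NmSpecOo M p A (nmCentre A P) Q ∧
      ∃ hY : nmYc M p h.four ∈ gaussOBar (M * p) A,
        Q.ord (nmRedOo (M * p) A ⟨nmYc M p h.four, hY⟩) = 1

section Main

variable {M p : ℕ} [NeZero M] [NeZero p] {A : ValuationSubring Qb}

/-- If the centre of `P` lies on `C_0`, the centre of `W • P` lies on `C_∞`. -/
theorem nmIdealOo_smul (H : NmBase M p A) (hLW : NmLocalWStatement M p)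
    (P : Place Qb (FLb (M * p))) (hz : NmIdealZero M p H.setup.cop A P) :
    NmIdealOo M p A (nmW M p H.setup.cop • P) := by
  have hW := nmW_invol (M := M) (p := p) H.setup.cop
  have hY : nmY A (nmW M p H.setup.cop • P) = nmY A P := nmY_smul H hLW P
  intro f hf hfV hred
  rw [hY] at hf
  obtain ⟨t, ht, htm, htW⟩ := hLW A H.setup P f hf
  have hWf0 : nmW M p H.setup.cop f ∈ nmV0 M p H.setup.cop A := nmW_mem_nmV0 H.setup.cop hfV
  have ht0 : t ∈ nmV0 M p H.setup.cop A := H.chart_le_zero P ht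
  have hred0 : nmRed0 M p H.setup.cop A
      ⟨t * nmW M p H.setup.cop f, mul_mem ht0 hWf0⟩ = 0 := by
    have e : (⟨t * nmW M p H.setup.cop f, mul_mem ht0 hWf0⟩ : nmV0 M p H.setup.cop A) =
        ⟨t, ht0⟩ * ⟨nmW M p H.setup.cop f, hWf0⟩ := rfl
    rw [e, map_mul, nmRed0_W H.setup.cop f hfV hWf0, hred, mul_zero]
  have h1 : t * nmW M p H.setup.cop f ∈ nmMax A P := hz _ htW _ hred0
  exact (mem_nmMax_smul_iff _ P hW A f).2
    (nmMax_of_mul P (H.deg P) (nmChart_value P (H.deg P) ht) htm h1)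

/-- If the centre of `P` lies on `C_∞`, the centre of `W • P` lies on `C_0`. -/
theorem nmIdealZero_smul (H : NmBase M p A) (hLW : NmLocalWStatement M p)
    (P : Place Qb (FLb (M * p))) (ho : NmIdealOo M p A P) :
    NmIdealZero M p H.setup.cop A (nmW M p H.setup.cop • P) := by
  have hW := nmW_invol (M := M) (p := p) H.setup.cop
  have hY : nmY A (nmW M p H.setup.cop • P) = nmY A P := nmY_smul H hLW P
  intro f hf hfV hred
  rw [hY] at hf
  obtain ⟨t, ht, htm, htW⟩ := hLW A H.setup P f hf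
  have hWfV : nmW M p H.setup.cop f ∈ gaussOBar (M * p) A := hfV
  have htV : t ∈ gaussOBar (M * p) A := H.chart_le_oo P ht
  have hredW : nmRedOo (M * p) A ⟨nmW M p H.setup.cop f, hWfV⟩ = 0 := hred
  have hred2 : nmRedOo (M * p) A ⟨t * nmW M p H.setup.cop f, mul_mem htV hWfV⟩ = 0 := by
    have e : (⟨t * nmW M p H.setup.cop f, mul_mem htV hWfV⟩ : gaussOBar (M * p) A) =
        ⟨t, htV⟩ * ⟨nmW M p H.setup.cop f, hWfV⟩ := rfl
    rw [e, map_mul, hredW, mul_zero]
  have h1 : t * nmW M p H.setup.cop f ∈ nmMax A P := ho _ htW _ hred2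
  exact (mem_nmMax_smul_iff _ P hW A f).2
    (nmMax_of_mul P (H.deg P) (nmChart_value P (H.deg P) ht) htm h1)

/-- A place of `F_∞` over the centre of `W • P` on `C_∞` lies over the centre of `P` on
`C_0`. -/
theorem nmSpecZero_of_smul (H : NmBase M p A) (hLW : NmLocalWStatement M p)
    (P : Place Qb (FLb (M * p))) (Q : Place (kRes A) (NmF (M * p) A))
    (hQ : NmSpecOo M p A (nmCentre A (nmW M p H.setup.cop • P)) Q) :
    NmSpecZero M p H.setup.cop A (nmCentre A P) Q := by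
  have hW := nmW_invol (M := M) (p := p) H.setup.cop
  have hY : nmY A (nmW M p H.setup.cop • P) = nmY A P := nmY_smul H hLW P
  obtain ⟨P', hP'⟩ : ∃ P' : Place Qb (FLb (M * p)), P' = nmW M p H.setup.cop • P := ⟨_, rfl⟩
  rw [← hP'] at hY hQ
  have hmax : ∀ g, g ∈ nmMax A P' ↔ nmW M p H.setup.cop g ∈ nmMax A P := fun g => by
    rw [hP']
    exact mem_nmMax_smul_iff _ P hW A g
  rintro f ⟨hfc, hfm⟩ hfV
  obtain ⟨t', ht', htm', htW'⟩ := hLW A H.setup P' f (by rw [hY]; exact hfc)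
  have hWfV : nmW M p H.setup.cop f ∈ gaussOBar (M * p) A := hfV
  have ht'V : t' ∈ gaussOBar (M * p) A := H.chart_le_oo P' ht'
  have hWfm : nmW M p H.setup.cop f ∈ nmMax A P' := by
    rw [hmax, hW]
    exact hfm
  have hcen : t' * nmW M p H.setup.cop f ∈ nmCentre A P' :=
    ⟨htW', nmMax_mul P' (H.deg P') (nmChart_value P' (H.deg P') ht') hWfm⟩
  have h2 := hQ _ hcen (mul_mem ht'V hWfV)
  have h3 : nmRedOo (M * p) A ⟨t', ht'V⟩ ∈ Q.toValuationSubring := H.redOo_mem hQ ht' ht'V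
  have h4 : nmRedOo (M * p) A ⟨t', ht'V⟩ ∉ Q.toValuationSubring.nonunits := fun h5 =>
    htm' ((H.redOo_mem_nonunits_iff hQ ht' ht'V).1 h5)
  have e : (⟨t' * nmW M p H.setup.cop f, mul_mem ht'V hWfV⟩ : gaussOBar (M * p) A) =
      ⟨t', ht'V⟩ * ⟨nmW M p H.setup.cop f, hWfV⟩ := rfl
  rw [e, map_mul] at h2
  show nmRedOo (M * p) A ⟨nmW M p H.setup.cop f, hWfV⟩ ∈ Q.toValuationSubring.nonunits
  exact vs_nonunit_of_mul _ h3 h4 h2

/-- **[XY] (c), both components, from the component `∞`** by transport along `W`. -/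
theorem nmCrossOrd_of_oo (hS : NmSoftStatement M p) (hoo : NmCrossOrdOoStatement M p) :
    NmCrossOrdStatement M p := by
  intro A h P hOo hZ hy hXc hYc hXm hYm
  have H : NmBase M p A := nmBase_of_soft hS h
  have hLW : NmLocalWStatement M p := Fermat.Agent.H95.ORD.nmLocalW M p
  have hW := nmW_invol (M := M) (p := p) h.cop
  obtain ⟨Q, hQ, hYV, hQord⟩ := hoo A h P hOo hZ hy hXc hYc hXm hYm
  -- the node `W • P`
  have hY' : nmY A (nmW M p h.cop • P) = nmY A P := nmY_smul H hLW P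
  have hoo' : NmIdealOo M p A (nmW M p h.cop • P) := nmIdealOo_smul H hLW P hZ
  have hz' : NmIdealZero M p h.cop A (nmW M p h.cop • P) := nmIdealZero_smul H hLW P hOo
  have hXm' : nmX M p h.four ∈ nmMax A (nmW M p h.cop • P) := by
    rw [mem_nmMax_smul_iff _ P hW A, nmW_nmX]
    exact hYm
  have hYm' : nmYc M p h.four ∈ nmMax A (nmW M p h.cop • P) := by
    rw [mem_nmMax_smul_iff _ P hW A, nmW_nmYc]
    exact hXm
  obtain ⟨Q₁, hQ₁, hYV₁, hQ₁ord⟩ :=
    hoo A h (nmW M p h.cop • P) hoo' hz' (hY'.trans hy) hXc hYc hXm' hYm'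
  have hX0 : nmX M p h.four ∈ nmV0 M p h.cop A := by
    rw [mem_nmV0_iff, nmW_nmX]
    exact hYV₁
  refine ⟨Q, Q₁, hQ, nmSpecZero_of_smul H hLW P Q₁ hQ₁, ⟨hYV, hQord⟩, hX0, ?_⟩
  have e : nmRed0 M p h.cop A ⟨nmX M p h.four, hX0⟩ =
      nmRedOo (M * p) A ⟨nmYc M p h.four, hYV₁⟩ := by
    rw [nmRed0_apply]
    congr 1
    exact Subtype.ext (nmW_nmX M p h.four h.cop)
  rw [e]
  exact hQ₁ord

end Main

end Fermat.Agent.H12.ORD
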